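import Fermat.Statements.S20
import Fermat.Agent.Dim.Gamma0Cosets
import Fermat.Agent.Dim.Gamma0Frame
import Fermat.Agent.Dim.Counting

set_option autoImplicit false
open CuspForm

namespace Fermat.Agent.S20

theorem result (N : ℕ) [NeZero N] :
    (Module.finrank ℂ (CuspForm (CongruenceSubgroup.Gamma0 N) 2) : ℚ) = ModularCurve.genusFormula N := by
  classical
  have : Fintype (FLTAgent.Dim.Cos (CongruenceSubgroup.Gamma0 N)) := Fintype.ofFinite _
  have : Fintype (FLTAgent.Dim.TOrb (CongruenceSubgroup.Gamma0 N)) := Fintype.ofFinite _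
  rw [FLTAgent.Dim.finrank_cuspForm_two_of_frame
      (FLTAgent.Dim.isFrame_of_injective (FLTAgent.Dim.isMF_discScaled N)
        (FLTAgent.Dim.conj_discScaled_injective N)),
    FLTAgent.Dim.card_fixed_S, FLTAgent.Dim.card_fixed_ST,
    ← Nat.card_eq_fintype_card, ← Nat.card_eq_fintype_card, FLTAgent.Dim.card_T_orbits,
    ← Subgroup.index_eq_card, FLTAgent.Dim.index_gamma0]
  rfl

end Fermat.Agent.S20
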