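import Fermat.Statements.S37
import Fermat.Agent.GoodRed.Specialization

set_option autoImplicit false
set_option linter.style.haveILetI false
open ModularCurve

namespace Fermat.Agent.S37

theorem result (N p : ℕ) [NeZero N] (hcomm : ModularCurve.HeckeOperatorsCommuteBar N) : letI := ModularCurve.heckeModuleBar N; ∀ (_ : SMulCommClass (AlgebraicClosure ℚ ≃ₐ[ℚ] AlgebraicClosure ℚ) ModularCurve.HeckeAlg (ModularCurve.JZero N)), ModularCurve.SpecializationExists (K := ℚ) (L := AlgebraicClosure ℚ) N p (ModularCurve.JZero N) := by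
  letI := ModularCurve.heckeModuleBar N
  intro hsc l hl hlNp A hA
  haveI := hsc
  haveI : Fact l.Prime := ⟨hl⟩
  exact FLTAgent.GoodRed.exists_specialization hA (fun h => hlNp (dvd_mul_of_dvd_left h p)) p
    (fun h => hlNp (dvd_mul_of_dvd_right h N))
    (fun x => ModularCurve.heckeModuleBar_heckeGen_smul hcomm ⟨l, hl⟩ x)

end Fermat.Agent.S37
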