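import Fermat.Statements.S10
import Fermat.Agent.Isogeny.Cofixed
import Fermat.Agent.X13.Frey

set_option autoImplicit false
open WeierstrassCurve WeierstrassCurve.Affine WeierstrassCurve.Affine.Point
open CuspForm ModularFormClass UpperHalfPlane
open FreyPackage

namespace Fermat.Agent.S10

theorem result (P : FreyPackage) (hp : P.p = 5 ∨ P.p = 7 ∨ P.p = 13) : ¬ HasGaloisStableCofixedLine (K := AlgebraicClosure ℚ) ℚ P.freyCurve P.p := by
  rcases hp with h | h | h
  · have := FLTAgent.X13.isElliptic_freyCurve P
    exact FLTAgent.SmallPrimes.frey_no_cofixed_five_seven P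
      (FLTAgent.Isogeny.hasOddQuotients P.freyCurve) (Or.inl h)
  · have := FLTAgent.X13.isElliptic_freyCurve P
    exact FLTAgent.SmallPrimes.frey_no_cofixed_five_seven P
      (FLTAgent.Isogeny.hasOddQuotients P.freyCurve) (Or.inr h)
  · exact FLTAgent.X13.frey_no_cofixed_thirteen P h

end Fermat.Agent.S10
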