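import Fermat.Statements.S02

set_option autoImplicit false
open FreyPackage

namespace Fermat.Agent.S02

/-- From a coprime solution of `x^p + y^p + z^p = 0` with `y` even, a Frey package. -/
theorem core (x y z : ℤ) (p : ℕ) (pp : p.Prime) (hp5 : 5 ≤ p) (hx : x ≠ 0) (hy : y ≠ 0)
    (hz : z ≠ 0) (H : x ^ p + y ^ p + z ^ p = 0) (hg : Int.gcd x y = 1) (hy2 : 2 ∣ y) :
    Nonempty FreyPackage := by
  have hodd : Odd p := pp.odd_of_ne_two (by omega)
  have hxodd : ¬ (2 : ℤ) ∣ x := by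
    intro h
    have h2 := Int.dvd_coe_gcd h hy2
    rw [hg] at h2
    norm_num at h2
  have hyz : (y : ZMod 2) = 0 := (ZMod.intCast_zmod_eq_zero_iff_dvd y 2).2 hy2
  rcases (show x % 4 = 1 ∨ x % 4 = 3 by omega) with h1 | h3
  · refine ⟨⟨-x, -y, z, neg_ne_zero.2 hx, neg_ne_zero.2 hy, hz, p, pp, hp5, ?_, ?_, ?_, ?_⟩⟩
    · rw [hodd.neg_pow, hodd.neg_pow]; linear_combination -H
    · rw [← Int.coe_gcd, Int.gcd_neg, Int.neg_gcd, hg]; rfl
    · rw [← ZMod.intCast_mod]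
      have : (-x) % ((4 : ℕ) : ℤ) = 3 := by omega
      rw [this]; rfl
    · push_cast; rw [hyz, neg_zero]
  · refine ⟨⟨x, y, -z, hx, hy, neg_ne_zero.2 hz, p, pp, hp5, ?_, ?_, ?_, hyz⟩⟩
    · rw [hodd.neg_pow]; linear_combination H
    · rw [← Int.coe_gcd, hg]; rfl
    · rw [← ZMod.intCast_mod]
      have : x % ((4 : ℕ) : ℤ) = 3 := by omega
      rw [this]; rfl

theorem coprime_case (a b c : ℤ) (ha : a ≠ 0) (hb : b ≠ 0) (hc : c ≠ 0) (p : ℕ) (pp : p.Prime)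
    (hp5 : 5 ≤ p) (H : a ^ p + b ^ p = c ^ p) (hg : Int.gcd a b = 1) :
    Nonempty FreyPackage := by
  have hodd : Odd p := pp.odd_of_ne_two (by omega)
  by_cases hae : (2 : ℤ) ∣ a
  · refine core b a (-c) p pp hp5 hb ha (neg_ne_zero.2 hc) ?_ (by rw [Int.gcd_comm]; exact hg) hae
    rw [hodd.neg_pow]; linear_combination H
  by_cases hbe : (2 : ℤ) ∣ b
  · refine core a b (-c) p pp hp5 ha hb (neg_ne_zero.2 hc) ?_ hg hbe
    rw [hodd.neg_pow]; linear_combination H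
  · have hce : (2 : ℤ) ∣ c := by
      have h1 : Odd (a ^ p) := (Int.not_even_iff_odd.1 (by rwa [even_iff_two_dvd])).pow
      have h2 : Odd (b ^ p) := (Int.not_even_iff_odd.1 (by rwa [even_iff_two_dvd])).pow
      have h3 : Even (c ^ p) := H ▸ h1.add_odd h2
      exact even_iff_two_dvd.1 ((Int.even_pow.1 h3).1)
    refine core a (-c) b p pp hp5 ha (neg_ne_zero.2 hc) hb ?_ ?_ (dvd_neg.2 hce)
    · rw [hodd.neg_pow]; linear_combination H
    · rw [Int.gcd_neg]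
      have := FreyPackage.gcdab_eq_gcdac (pp.pos) H
      rw [← Int.coe_gcd, ← Int.coe_gcd] at this
      rw [← hg]
      exact_mod_cast this.symm

theorem result (a b c : ℤ) (ha : a ≠ 0) (hb : b ≠ 0) (hc : c ≠ 0) (p : ℕ) (pp : p.Prime) (hp5 : 5 ≤ p) (H : a ^ p + b ^ p = c ^ p) : Nonempty FreyPackage := by
  obtain ⟨g, a', b', hg, hco, rfl, rfl⟩ :=
    Int.exists_gcd_one' (Int.gcd_pos_of_ne_zero_left b ha)
  have hg0 : (g : ℤ) ≠ 0 := by exact_mod_cast hg.ne'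
  have hdvd : (g : ℤ) ∣ c := by
    rw [← Int.pow_dvd_pow_iff pp.ne_zero, ← H]
    exact dvd_add (pow_dvd_pow_of_dvd (dvd_mul_left _ _) _) (pow_dvd_pow_of_dvd (dvd_mul_left _ _) _)
  obtain ⟨c', rfl⟩ := hdvd
  refine coprime_case a' b' c' (left_ne_zero_of_mul ha) (left_ne_zero_of_mul hb)
    (right_ne_zero_of_mul hc) p pp hp5 ?_ hco
  rw [mul_pow, mul_pow, mul_pow] at H
  exact mul_right_cancel₀ (pow_ne_zero p hg0) (by linear_combination H)

end Fermat.Agent.S02
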