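import Fermat.Statements.S03
import Fermat.Agent.Wiring.Final
import Fermat.Agent.LT.TF.CubicDescent

set_option autoImplicit false
open FreyPackage

namespace Fermat.Agent.S03

theorem result (P : FreyPackage) : False :=
  FLTAgent.Wiring.freyPackage_false_of_descent FLTAgent.LT.cubicDescent P

end Fermat.Agent.S03
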