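-- S05: the Frey representation is unramified at primes q ≠ 2, p.
import Fermat.Statements.S05
import Fermat.Agent.Reduction.Unramified
import Fermat.Agent.Frey.Model

set_option autoImplicit false
open WeierstrassCurve WeierstrassCurve.Affine WeierstrassCurve.Affine.Point
open CuspForm ModularFormClass UpperHalfPlane
open FreyPackage

namespace Fermat.Agent.S05

theorem result (P : FreyPackage) {q : ℕ} (hq : q.Prime) (hq2 : q ≠ 2) (hqp : q ≠ P.p) : P.GaloisRepUnramifiedAt q := by
  have hqp' : ¬ q ∣ P.p := fun h => hqp ((Nat.prime_dvd_prime_iff_eq hq P.pp).1 h)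
  have key : WeierstrassCurve.Affine.Point.GaloisRepUnramifiedAt (K := AlgebraicClosure ℚ) ℚ
      (P.freyCurveInt.map (Int.castRingHom ℚ)) P.p q := by
    by_cases hbad : (q : ℤ) ∣ P.freyCurveInt.Δ
    · exact FLTAgent.Reduction.galoisRepUnramifiedAt_of_dvd P.freyCurveInt hq
        (FLTAgent.Frey.freyCurveInt_Δ_ne_zero P) hbad
        (FLTAgent.Frey.freyCurveInt_isSemistableModel P q hq hbad) P.pp
        (by have := P.hp5; omega) hqp (FLTAgent.Frey.p_dvd_padicValInt_Δ P hq hq2)
    · exact FLTAgent.Reduction.galoisRepUnramifiedAt_of_good P.freyCurveInt hq hbad hqp'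
  rw [FLTAgent.Frey.freyCurveInt_map] at key
  exact key

end Fermat.Agent.S05
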