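import Fermat.Statements.S19
import Fermat.Agent.FlatModel.X0AllPrimes

set_option autoImplicit false
open ModularCurve
open ModularCurve

namespace Fermat.Agent.S19

theorem result
    (p : ℕ) [NeZero p] (ℓ : ℕ) [Fact ℓ.Prime] (hℓp : ¬ ℓ ∣ p) (k : ℕ) :
    ∃ (H : Type) (_ : CommRing H) (_ : HopfAlgebra (GaloisRep.ratLocalizedAt ℓ) H),
      Module.Finite (GaloisRep.ratLocalizedAt ℓ) H ∧ Module.Flat (GaloisRep.ratLocalizedAt ℓ) H ∧
      Coalgebra.IsCocomm (GaloisRep.ratLocalizedAt ℓ) H ∧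
      ∃ e : WithConv (H →ₐ[GaloisRep.ratLocalizedAt ℓ] AlgebraicClosure ℚ) ≃
          ↥(Submodule.torsionBy ℤ (JZero p) ((ℓ : ℤ) ^ k)),
        (∀ f g, e (f * g) = e f + e g) ∧
        ∀ (σ : AlgebraicClosure ℚ ≃ₐ[ℚ] AlgebraicClosure ℚ)
          (f g : WithConv (H →ₐ[GaloisRep.ratLocalizedAt ℓ] AlgebraicClosure ℚ)),
          (∀ h : H, g h = σ (f h)) → ((e g : JZero p)) = σ • (e f : JZero p) := by
  have hn : ℓ ^ k ≠ 0 := pow_ne_zero k (Fact.out : ℓ.Prime).ne_zero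
  have hcast : ((ℓ : ℤ) ^ k) = ((ℓ ^ k : ℕ) : ℤ) := (Nat.cast_pow ℓ k).symm
  rw [hcast]
  exact FLTAgent.FlatModel.exists_finiteFlat_torsion p (ℓ ^ k) hn hℓp
    (FLTAgent.FlatModel.genusEqAt_of_not_dvd hℓp) (Submodule.subtype _).toAddMonoidHom
    (fun _ _ _ h => h) Subtype.val_injective

end Fermat.Agent.S19
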