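import Fermat.Statements.S25
import Fermat.Agent.Jac.CurveModel
import Fermat.Agent.Jac.Rep
import Fermat.Agent.Jac.Cut
import Fermat.Agent.Jac.Props

set_option autoImplicit false
set_option autoImplicit false
universe u
open CategoryTheory CategoryTheory.Limits AlgebraicGeometry AlgebraicGeometry.RelPicard NeronModelInfra
  GoodReductionJacobian
open AlgebraicGeometry AlgebraicGeometry.RelPicard

namespace Fermat.Agent.S25

theorem result
    (k : Type u) [Field k] [IsAlgClosed k] {C : Scheme.{u}} (c : C ⟶ Spec (CommRingCat.of k))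
    [IsProper c] [SmoothOfRelativeDimension 1 c] [IsIntegral C]
    (ε : SchemeHomOver (𝟙 (Spec (CommRingCat.of k))) c) :
    ∃ D : RelativePic0Designation k c,
      Nonempty (RepresentsRelSubPic c ε (algEquivZeroCut c ε) D) ∧
        Smooth D.toBase ∧ IsProper D.toBase ∧ GeometricallyConnected D.toBase := by
  obtain ⟨M, ⟨φ⟩⟩ := FLTAgent.Jac.exists_curveChart k c ε
  obtain ⟨E, hft⟩ := FLTAgent.Jac.exists_subRep_degZero φ
  have := hft
  obtain ⟨hprop, hgi⟩ := E.isProper_and_geometricallyIntegral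
  have := hgi
  have hcut : ∀ {T : Scheme.{u}} (t : T ⟶ Spec (CommRingCat.of k))
      (Mb : RigidifiedLineBundle c ε t),
      (algEquivZeroCut c ε).P t Mb ↔ (FLTAgent.Jac.degZero φ).P t Mb :=
    fun {_} t Mb => FLTAgent.Jac.algEquivZeroCut_iff φ E t Mb
  obtain ⟨g₀, hg₀, -⟩ := E.univ (𝟙 _) (RigidifiedLineBundle.unit (c := c) (ε := ε) (𝟙 _))
    (FLTAgent.Jac.degZero_unit (K := k) φ (𝟙 _))
  refine ⟨⟨E.P, E.toBase, g₀.1, g₀.2⟩, ⟨⟨E.poincare, (hcut _ _).mpr E.poincare_mem,
    fun t Mb hMb => E.univ t Mb ((hcut t Mb).mp hMb), hg₀⟩⟩, E.smooth, hprop, ?_⟩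
  have hirr : GeometricallyIrreducible E.toBase := inferInstance
  refine ⟨fun K _ y Z fst snd hP => ?_⟩
  have : IsIntegral Z := hgi.geometrically_isIntegral y fst snd hP
  show ConnectedSpace Z
  infer_instance

end Fermat.Agent.S25
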