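import Fermat.Statements.S31
import Fermat.Agent.GalRep.Inputs
import Fermat.Agent.GalRep.Specializations
-- import your own Fermat.Agent.* helpers here

set_option autoImplicit false
variable {p : ℕ} {N : ℕ} [NeZero N] {S : Finset ℕ}
  {𝒪 : Type} [CommRing 𝒪] [IsDomain 𝒪] [IsDiscreteValuationRing 𝒪]
  [IsAdicComplete (IsLocalRing.maximalIdeal 𝒪) 𝒪]
  {θ : CuspForm.heckeAlgebra N 2 (↑S : Set ℕ) →+* IsLocalRing.ResidueField 𝒪}
  {T : Type} [CommRing T] [IsLocalRing T] [IsNoetherianRing T]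
  [IsAdicComplete (IsLocalRing.maximalIdeal T) T] [Algebra 𝒪 T] [IsLocalHom (algebraMap 𝒪 T)]
  [Module.Finite 𝒪 T] [Module.Free 𝒪 T]
open CuspForm CuspForm.HeckeGaloisRepDatum

namespace Fermat.Agent.S31

theorem result (hp : p.Prime)
    (hp𝒪 : (p : 𝒪) ∈ IsLocalRing.maximalIdeal 𝒪) (hpS : p ∈ S)
    (hNS : ∀ q : ℕ, q.Prime → q ∣ N → q ∈ S)
    (H : CuspForm.HeckeGaloisRepDatum N (↑S : Set ℕ) 𝒪 θ T)
    (q : ℕ) (hq : q.Prime) (hqS : q ∉ S) :
    H.ρ.IsUnramifiedAt q := by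
  haveI : Fact p.Prime := ⟨hp⟩
  obtain ⟨M⟩ := FLTAgent.GalRep.matModel_of_specializations
    FLTAgent.GalRep.specializationsExist N p S hNS
  exact FLTAgent.GalRep.isUnramifiedAt_of_matModel M FLTAgent.GalRep.frobeniusDense hp𝒪 H q hq
    fun h => (hq.dvd_mul.mp h).elim (fun h' => hqS (hNS q hq h'))
      fun h' => hqS ((Nat.prime_dvd_prime_iff_eq hq hp).mp h' ▸ hpS)

end Fermat.Agent.S31
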