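import Fermat.Statements.S42
import Fermat.Agent.GalRep.Inputs
import Fermat.Agent.GalRep.Specializations
-- import your own Fermat.Agent.* helpers here

set_option autoImplicit false
open FreyPackage

namespace Fermat.Agent.S42

theorem result (P : FreyPackage) :
    ∀ M : ℕ, 0 < M → P.EigenformResidualAttachmentAt M := by
  exact FLTAgent.GalRep.eigenformResidualAttachmentAt FLTAgent.GalRep.frobeniusDense
    (fun N _ p _ S hS => FLTAgent.GalRep.matModel_of_specializations
      FLTAgent.GalRep.specializationsExist N p S hS) P

end Fermat.Agent.S42
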