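import Fermat.Statements.S46
import Fermat.Agent.LT.Lattice.Main
import Fermat.Agent.LT.TF.CubicDescent
import Fermat.Agent.LT.Adjoint.Main
import Fermat.Agent.LT.Asai.Main
import Fermat.Agent.LT.Theta31.ThetaLift
import Fermat.Agent.LT.Theta31.Nonvanish

set_option autoImplicit false
open WeierstrassCurve CuspForm EisensteinWeightOne FormalHecke
open FLT FLT.No2BridgeWiring

namespace Fermat.Agent.S46

theorem result :
    ∀ W : WeierstrassCurve ℤ, W.Δ ≠ 0 → W.IsSemistableModel → W.ModRepIsIrreducible 3 →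
      ∃ (N : ℕ) (_ : NeZero N) (a : ℕ → ℤ),
        CuspForm.HasIntegralBasis N ∧
        FormalHecke.IsEigensystem
          (fun ℓ => if ℓ ∣ N then 0 else ((chiNegThree ℓ : ℤ) : ℤ)) a ∧
        CuspForm.IsLatticeRealized N a ∧
        (∀ q : ℕ, q.Prime → q ≠ 3 → ¬ q ^ 3 ∣ N) ∧
        ∀ ℓ : ℕ, ℓ.Prime → W.IsGoodPrimeFor ℓ → ¬ ℓ ∣ N → ℓ ≠ 3 →
          (3 : ℤ) ∣ (a ℓ - W.apOfModel ℓ) := by
  exact FLTAgent.LT.Lattice.latticeRealized_of_ltConclusion fun d =>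
    FLTAgent.LT.lt_conclusion (FLTAgent.LT.cubicDescent d) (FLTAgent.LT.asaiPeriod d)
      (FLTAgent.LT.Theta31.thetaLift_of_liftNonzero d FLTAgent.LT.Theta31.liftNonzero)
      (FLTAgent.LT.adjointMatch d)

end Fermat.Agent.S46
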