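import Fermat.Statements.S47
import Fermat.Agent.LT.TF.CubicDescent
import Fermat.Agent.LT.Adjoint.Main
import Fermat.Agent.LT.Asai.Main
import Fermat.Agent.LT.Theta31.ThetaLift
import Fermat.Agent.LT.Theta31.Nonvanish

set_option autoImplicit false
set_option autoImplicit false
open AutomorphicForm FLT.ExplicitLift EisensteinWeightOne open WeierstrassCurve
open scoped MatrixGroups
local notation "Γℚ" => (AlgebraicClosure ℚ ≃ₐ[ℚ] AlgebraicClosure ℚ)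
open LanglandsTunnell

namespace Fermat.Agent.S47

theorem result
    (ρ : Γℚ →* GL (Fin 2) (ZMod 3)) (hρ : Continuous ρ) (hsurj : Function.Surjective ρ)
    (hdet : ∀ σ : Γℚ, Matrix.GeneralLinearGroup.det (ρ σ) = modThreeCyclotomicChar σ)
    (Ψ : GL (Fin 2) (ZMod 3) →* GL (Fin 2) (ℤ√(-2)))
    (hΨ : ∀ g, Matrix.GeneralLinearGroup.map red (Ψ g) = g) :
    ∃ (N : ℕ) (_ : NeZero N) (b : ℕ → ℤ√(-2)),
      FormalHecke.IsEigensystem
        (fun ℓ => if ℓ ∣ N then 0 else ((chiNegThree ℓ : ℤ) : ℤ√(-2))) b ∧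
      CuspForm.IsWeightOneChiNegThreeRealized N b ∧
      ∀ p : ℕ, p.Prime → ¬ p ∣ 3 * N →
        ∀ A : ValuationSubring (AlgebraicClosure ℚ), A.LiesOverPrime p →
          ∀ σ : Γℚ, A.IsFrobeniusAt σ p →
            b p = ((Ψ (ρ σ) : GL (Fin 2) (ℤ√(-2))) : Matrix (Fin 2) (Fin 2) (ℤ√(-2))).trace := by
  obtain ⟨d, hd, hl⟩ : ∃ d : FLTAgent.LT.Octa, d.rbar = ρ ∧ d.lift = Ψ :=
    ⟨⟨ρ, hρ, hsurj, hdet, Ψ, hΨ⟩, rfl, rfl⟩
  obtain ⟨N, hN, b, f, -, hb, hf, htr⟩ :=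
    FLTAgent.LT.lt_conclusion (FLTAgent.LT.cubicDescent d) (FLTAgent.LT.asaiPeriod d)
      (FLTAgent.LT.Theta31.thetaLift_of_liftNonzero d FLTAgent.LT.Theta31.liftNonzero)
      (FLTAgent.LT.adjointMatch d)
  subst hd hl
  exact ⟨N, hN, b, hb, ⟨FLTAgent.LT.iotaC, f, hf⟩, htr⟩

end Fermat.Agent.S47
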