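import Fermat.Statements.S50
import Fermat.Agent.LT.TF.CubicDescent
import Fermat.Agent.Switch35.Semistable

set_option autoImplicit false
set_option autoImplicit false
open WeierstrassCurve WeierstrassCurve.Affine WeierstrassCurve.Affine.Point
open scoped WeierstrassCurve.Affine
open WeierstrassCurve

namespace Fermat.Agent.S50

theorem result
    (W : WeierstrassCurve ℤ) (hΔ : W.Δ ≠ 0) (hW : W.IsSemistableModel)
    (h3 : W.ModRepIsIrreducible 3) :
    ∃ M : ℕ, 0 < M ∧ W.IsResiduallyModularOfLevel 3 M ∧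
      (∀ q : ℕ, q.Prime → q ≠ 3 → ¬ q ^ 3 ∣ M) ∧
      (3 ^ 2 ∣ M →
        ∀ A : ValuationSubring (AlgebraicClosure ℚ), A.LiesOverPrime 3 →
          ∀ x : Submodule.torsionBy ℤ
              ((W.map (Int.castRingHom ℚ))⁄(AlgebraicClosure ℚ)).Point (3 : ℕ),
            (∀ σ ∈ A.inertiaSubgroupIn ℚ, σ • x = x) → x = 0) := by
  obtain ⟨M, hM, h9, hq3, hres⟩ := FLTAgent.Hesse.residualThree_of_nonsplit
    FLTAgent.Wiring.liftingThreeFive_holds
    (FLTAgent.Wiring.residualThreeNonsplit_of_pieces FLTAgent.LT.cubicDescent) W hΔ hW h3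
  exact ⟨M, hM, hres, hq3, fun h => absurd h h9⟩

end Fermat.Agent.S50
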