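import Fermat.Statements.S56
import Fermat.Agent.TW.Assembly
-- import your own Fermat.Agent.* helpers here

set_option autoImplicit false
set_option autoImplicit false
open Polynomial IsLocalRing
open ResidualGaloisRep

namespace Fermat.Agent.S56

theorem result
    {𝒪 : Type} [CommRing 𝒪] [IsDomain 𝒪] [IsDiscreteValuationRing 𝒪]
    [IsAdicComplete (maximalIdeal 𝒪) 𝒪] [Finite (ResidueField 𝒪)]
    (p : ℕ) [Fact p.Prime] (hp2 : p ≠ 2) (hp𝒪 : (p : 𝒪) ∈ maximalIdeal 𝒪)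
    (ρbar : ResidualGaloisRep (ResidueField 𝒪))
    (habs : ρbar.IsAbsolutelyIrreducible)
    (hdet : (GaloisRepAdic.ofResidualGaloisRep ρbar).DetIsCyclotomic p)
    (hsplit : ∀ σ : AlgebraicClosure ℚ ≃ₐ[ℚ] AlgebraicClosure ℚ,
      ∃ α β : ResidueField 𝒪, LinearMap.charpoly (ρbar.ρ σ) = (X - C α) * (X - C β))
    (hTW : ∀ (K : Type) [Field K] [Algebra (ResidueField 𝒪) K]
      (G : Subgroup (AlgebraicClosure ℚ ≃ₐ[ℚ] AlgebraicClosure ℚ)), G.index = 2 →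
      ∀ V : Submodule K (ρbar.baseChange K).V,
        (∀ σ ∈ G, ∀ x ∈ V, (ρbar.baseChange K).ρ σ x ∈ V) → V = ⊥ ∨ V = ⊤)
    (S Smin : Finset ℕ) (hpSmin : p ∈ Smin) (hSmin : Smin ⊆ S) (hS : ∀ q ∈ S, q.Prime)
    (hmin : ∀ q : ℕ, q.Prime → q ≠ p → (q ∈ Smin ↔ ¬ ρbar.IsUnramifiedAt q)) :
    (∃ r : ℕ, ∀ n : ℕ, ∃ qv : Fin r → ℕ, Function.Injective qv ∧
      (∀ i, (qv i).Prime ∧ qv i ∉ S ∧ p ^ (n + 1) ∣ qv i - 1) ∧
      (∀ i, ∀ P : ValuationSubring (AlgebraicClosure ℚ), P.LiesOverPrime (qv i) →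
        ∀ φ : AlgebraicClosure ℚ ≃ₐ[ℚ] AlgebraicClosure ℚ, P.IsFrobeniusAt φ (qv i) →
          ∃ α β : ResidueField 𝒪, α ≠ β ∧ LinearMap.charpoly (ρbar.ρ φ) = (X - C α) * (X - C β)) ∧
      ∀ DQ : GaloisRep.DeformationRingData 𝒪 ρbar (fun _A _ _ _ ρ =>
          GaloisRep.strictOrdinaryCondition 𝒪 p (Smin ∪ Finset.univ.image qv) ρ ∧
            ∀ q ∈ Smin, q.Prime → q ≠ p → ρ.IsUnipotentOnInertiaAt q),
        ∃ γ : MvPowerSeries (Fin r) 𝒪 →ₐ[𝒪] DQ.R, Function.Surjective γ) ∧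
    (∃ r : ℕ, ∀ n : ℕ, ∃ qv : Fin r → ℕ, Function.Injective qv ∧
      (∀ i, (qv i).Prime ∧ qv i ∉ S ∧ p ^ (n + 1) ∣ qv i - 1) ∧
      (∀ i, ∀ P : ValuationSubring (AlgebraicClosure ℚ), P.LiesOverPrime (qv i) →
        ∀ φ : AlgebraicClosure ℚ ≃ₐ[ℚ] AlgebraicClosure ℚ, P.IsFrobeniusAt φ (qv i) →
          ∃ α β : ResidueField 𝒪, α ≠ β ∧ LinearMap.charpoly (ρbar.ρ φ) = (X - C α) * (X - C β)) ∧
      ∀ DQ : GaloisRep.DeformationRingData 𝒪 ρbar (fun _A _ _ _ ρ =>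
          GaloisRep.flatCondition 𝒪 p (Smin ∪ Finset.univ.image qv) ρ ∧
            ∀ q ∈ Smin, q.Prime → q ≠ p → ρ.IsUnipotentOnInertiaAt q),
        ∃ γ : MvPowerSeries (Fin r) 𝒪 →ₐ[𝒪] DQ.R, Function.Surjective γ) := by
  have hpk : ((p : ℕ) : ResidueField 𝒪) = 0 := by
    rw [← map_natCast (residue 𝒪), residue_eq_zero_iff]; exact hp𝒪
  have : CharP (ResidueField 𝒪) p :=
    (CharP.charP_iff_prime_eq_zero (Fact.out : p.Prime)).mpr hpk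
  have h := FLTAgent.TW.residualHyp_barMatrix ρbar habs hdet hsplit hTW Smin hpSmin
    (fun q hq => hS q (hSmin hq)) hmin
  have hram : ∀ q : ℕ, q ∈ Smin → q ≠ p → ¬ ρbar.IsUnramifiedAt q := fun q hq hqp =>
    (hmin q (hS q (hSmin hq)) hqp).mp hq
  refine ⟨?_, ?_⟩
  · exact FLTAgent.TW.exists_twPrimes_surjective ρbar hp2 habs h hram (fun ρ => ρ.IsStrictOrdinaryAt p)
      (fun P hP => FLTAgent.TW.strictOrdinary_cocycle_bound hp2 _ h.level h.det P hP) S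
      (fun Q => FLTAgent.RTCond.strictProblem 𝒪 p (Smin ∪ Q) Smin)
      (fun Q => FLTAgent.RTCond.strictProblem_isDeformationCondition 𝒪 hp2 hp𝒪 _ _)
      (fun Q ρ hρ => ⟨hρ.1.1, hρ.1.2.1, hρ.1.2.2, hρ.2⟩)
  · exact FLTAgent.TW.exists_twPrimes_surjective ρbar hp2 habs h hram (fun ρ => ρ.IsFlatAt p)
      (fun P hP => FLTAgent.TW.flat_cocycle_bound hp2 _ h.level
        (fun σ => by
          obtain ⟨α, β, hc⟩ := hsplit σ
          exact ⟨α, β, (FLTAgent.TW.charpoly_barMatrix ρbar σ).trans hc⟩) h.det P hP) S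
      (fun Q => FLTAgent.RTCond.flatProblem 𝒪 p (Smin ∪ Q) Smin)
      (fun Q => FLTAgent.RTCond.flatProblem_isDeformationCondition 𝒪 hp𝒪 _ _)
      (fun Q ρ hρ => ⟨hρ.1.1, hρ.1.2.1, hρ.1.2.2, hρ.2⟩)

end Fermat.Agent.S56
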